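import Fermat.Agent.Arith.Frobenius
import Fermat.Agent.Arith.RootsOfUnity
import Fermat.Agent.Arith.Density.DegreeOne

/-!
# Degree one primes over a good prime `ℓ` ↔ embeddings fixed by a Frobenius at `ℓ`
-/

set_option autoImplicit false

noncomputable section

namespace Fermat.Agent.Arith.Density

open scoped NumberField Pointwise
open NumberField (RingOfIntegers)

/-- A nonzero algebraic integer is a unit at almost all places. -/
theorem exists_bound_of_mem_nonunits {x : QBar} (hx : IsIntegral ℤ x) (h0 : x ≠ 0) :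
    ∃ B : ℕ, ∀ ℓ : ℕ, ℓ.Prime → ∀ A : ValuationSubring QBar, A.LiesOverPrime ℓ →
      x ∈ A.nonunits → ℓ ≤ B := by
  have halg : IsIntegral ℚ x := hx.tower_top
  set P := minpoly ℤ x with hP
  refine ⟨(P.coeff 0).natAbs, fun ℓ hℓ A hA hmem => ?_⟩
  have hc : P.coeff 0 ≠ 0 := fun h => minpoly.coeff_zero_ne_zero halg h0 (by
    rw [minpoly.isIntegrallyClosed_eq_field_fractions' ℚ hx, Polynomial.coeff_map, ← hP, h,
      map_zero])
  have hmem' : ((P.coeff 0 : ℤ) : QBar) ∈ A.nonunits := by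
    have h := minpoly.aeval ℤ x
    rw [← hP, ← Polynomial.divX_mul_X_add P, map_add, map_mul, Polynomial.aeval_X,
      Polynomial.aeval_C, eq_intCast] at h
    have h2 : ((P.coeff 0 : ℤ) : QBar) = -(Polynomial.aeval x P.divX * x) :=
      eq_neg_of_add_eq_zero_right h
    rw [h2]
    refine nonunits_neg (nonunits_mul_left ?_ hmem)
    rw [Polynomial.aeval_eq_sum_range]
    exact sum_mem fun i _ => by
      rw [zsmul_eq_mul]
      exact mul_mem (intCast_mem A _) (pow_mem (mem_of_isIntegral A hx) _)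
  rw [intCast_mem_nonunits_iff hA hℓ, Int.natCast_dvd] at hmem'
  exact Nat.le_of_dvd (Int.natAbs_pos.mpr hc) hmem'

variable (K : Type) [Field K] [NumberField K]

/-- The ring map `𝓞 K → ZBar` of an embedding. -/
def intMap (f : K →ₐ[ℚ] QBar) : 𝓞 K →+* ZBar where
  toFun x := ⟨f (x : K), (x.2 : IsIntegral ℤ (x : K)).map f.toRingHom.toIntAlgHom⟩
  map_one' := Subtype.ext (map_one f)
  map_mul' x y := Subtype.ext (map_mul f (x : K) (y : K))
  map_zero' := Subtype.ext (map_zero f)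
  map_add' x y := Subtype.ext (map_add f (x : K) (y : K))

/-- `ℓ` is good for `K` if distinct embeddings remain distinct modulo every place over `ℓ`. -/
def Good (ℓ : ℕ) : Prop :=
  ∀ A : ValuationSubring QBar, A.LiesOverPrime ℓ → ∀ f f' : K →ₐ[ℚ] QBar, f ≠ f' →
    ∃ x : 𝓞 K, f (x : K) - f' (x : K) ∉ A.nonunits

theorem exists_bound_good : ∃ B : ℕ, ∀ ℓ : ℕ, ℓ.Prime → B < ℓ → Good K ℓ := by
  classical
  have hsep : ∀ p : {p : (K →ₐ[ℚ] QBar) × (K →ₐ[ℚ] QBar) // p.1 ≠ p.2},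
      ∃ x : 𝓞 K, p.1.1 (x : K) - p.1.2 (x : K) ≠ 0 := by
    rintro ⟨⟨f, f'⟩, hne⟩
    by_contra h
    push Not at h
    refine hne (AlgHom.ext fun z => ?_)
    obtain ⟨a, b, hb, rfl⟩ := IsFractionRing.div_surjective (𝓞 K) z
    rw [map_div₀, map_div₀, sub_eq_zero.mp (h a), sub_eq_zero.mp (h b)]
  choose x hx using hsep
  choose B hB using fun p => exists_bound_of_mem_nonunits
    ((((x p).2 : IsIntegral ℤ ((x p : 𝓞 K) : K)).map p.1.1.toRingHom.toIntAlgHom).sub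
      (((x p).2 : IsIntegral ℤ ((x p : 𝓞 K) : K)).map p.1.2.toRingHom.toIntAlgHom)) (hx p)
  refine ⟨Finset.univ.sup B, fun ℓ hℓ hB' A hA f f' hne => ⟨x ⟨(f, f'), hne⟩, fun hmem => ?_⟩⟩
  have h1 := hB ⟨(f, f'), hne⟩ ℓ hℓ A hA hmem
  have h2 := Finset.le_sup (f := B) (Finset.mem_univ ⟨(f, f'), hne⟩)
  omega

variable {K} {ℓ : ℕ} {A : ValuationSubring QBar} {σ : GQ}

theorem mem_comap_intMap {f : K →ₐ[ℚ] QBar} {x : 𝓞 K} :
    x ∈ (centre A).comap (intMap K f) ↔ f (x : K) ∈ A.nonunits := by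
  rw [Ideal.mem_comap, mem_centre]
  rfl

theorem natCast_mem_comap (hA : A.LiesOverPrime ℓ) (f : K →ₐ[ℚ] QBar) :
    (ℓ : 𝓞 K) ∈ (centre A).comap (intMap K f) := by
  rw [Ideal.mem_comap, map_natCast, mem_centre]
  exact hA

theorem comap_intMap_ne_bot (hA : A.LiesOverPrime ℓ) (hℓ : ℓ.Prime) (f : K →ₐ[ℚ] QBar) :
    (centre A).comap (intMap K f) ≠ ⊥ := by
  intro h
  have := natCast_mem_comap hA f
  rw [h, Ideal.mem_bot, Nat.cast_eq_zero] at this
  exact hℓ.ne_zero this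

theorem absNorm_comap_of_fixed (hA : A.LiesOverPrime ℓ) (hℓ : ℓ.Prime)
    (hσ : A.IsFrobeniusAt σ ℓ) {f : K →ₐ[ℚ] QBar} (hf : (σ : QBar →ₐ[ℚ] QBar).comp f = f) :
    Ideal.absNorm ((centre A).comap (intMap K f)) = ℓ := by
  set 𝔭 := (centre A).comap (intMap K f) with h𝔭
  have hmax : 𝔭.IsMaximal := Ideal.IsPrime.isMaximal inferInstance (comap_intMap_ne_bot hA hℓ f)
  let := Ideal.Quotient.field 𝔭
  have hpow : ∀ z : 𝓞 K ⧸ 𝔭, z ^ ℓ = z := by
    intro z
    obtain ⟨x, rfl⟩ := Ideal.Quotient.mk_surjective z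
    rw [← map_pow, Ideal.Quotient.eq, h𝔭, mem_comap_intMap]
    have h1 := (isFrobeniusAt_iff hA hℓ).mp hσ (f (x : K))
      ((x.2 : IsIntegral ℤ (x : K)).map f.toRingHom.toIntAlgHom)
    have h2 : σ (f (x : K)) = f (x : K) := AlgHom.congr_fun hf (x : K)
    rw [h2] at h1
    have h3 := nonunits_neg h1
    rw [neg_sub] at h3
    simpa [map_sub, map_pow] using h3
  have : Fact ℓ.Prime := ⟨hℓ⟩
  have : CharP (𝓞 K ⧸ 𝔭) ℓ := (CharP.charP_iff_prime_eq_zero hℓ).mpr (by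
    rw [← map_natCast (Ideal.Quotient.mk 𝔭), Ideal.Quotient.eq_zero_iff_mem]
    exact natCast_mem_comap hA f)
  let := ZMod.algebra (𝓞 K ⧸ 𝔭) ℓ
  have hbij : Function.Bijective (algebraMap (ZMod ℓ) (𝓞 K ⧸ 𝔭)) := by
    refine ⟨RingHom.injective _, fun z => ?_⟩
    -- the polynomial `X ^ ℓ - X` has at most `ℓ` roots
    classical
    by_contra hz
    push Not at hz
    have hP : (Polynomial.X ^ ℓ - Polynomial.X : Polynomial (𝓞 K ⧸ 𝔭)) ≠ 0 :=
      FiniteField.X_pow_card_sub_X_ne_zero _ hℓ.one_lt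
    have hsub : insert z (Finset.univ.image (algebraMap (ZMod ℓ) (𝓞 K ⧸ 𝔭))) ⊆
        (Polynomial.X ^ ℓ - Polynomial.X : Polynomial (𝓞 K ⧸ 𝔭)).roots.toFinset := by
      intro w _
      rw [Multiset.mem_toFinset, Polynomial.mem_roots hP, Polynomial.IsRoot, Polynomial.eval_sub,
        Polynomial.eval_pow, Polynomial.eval_X, hpow, sub_self]
    have h1 := Finset.card_le_card hsub
    rw [Finset.card_insert_of_notMem (by simp [fun a => (hz a)]),
      Finset.card_image_of_injective _ (algebraMap (ZMod ℓ) (𝓞 K ⧸ 𝔭)).injective,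
      Finset.card_univ, ZMod.card] at h1
    have h2 := (Multiset.toFinset_card_le _).trans (Polynomial.card_roots'
      (Polynomial.X ^ ℓ - Polynomial.X : Polynomial (𝓞 K ⧸ 𝔭)))
    rw [FiniteField.X_pow_card_sub_X_natDegree_eq _ hℓ.one_lt] at h2
    omega
  rw [Ideal.absNorm_apply, Submodule.cardQuot_apply, ← Nat.card_eq_of_bijective _ hbij,
    Nat.card_zmod]

theorem exists_natCast_sub_mem {𝔭 : PrimeId K} (h : Ideal.absNorm 𝔭.1 = ℓ) (hℓ : ℓ.Prime)
    (x : 𝓞 K) : ∃ c : ℕ, x - (c : 𝓞 K) ∈ 𝔭.1 := by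
  have : Fact ℓ.Prime := ⟨hℓ⟩
  have : Nontrivial (𝓞 K ⧸ 𝔭.1) := Ideal.Quotient.nontrivial_iff.mpr 𝔭.2.1.ne_top
  have : CharP (𝓞 K ⧸ 𝔭.1) ℓ := (CharP.charP_iff_prime_eq_zero hℓ).mpr (by
    rw [← map_natCast (Ideal.Quotient.mk 𝔭.1), Ideal.Quotient.eq_zero_iff_mem, ← h]
    exact Ideal.absNorm_mem 𝔭.1)
  let := ZMod.algebra (𝓞 K ⧸ 𝔭.1) ℓ
  have : Finite (𝓞 K ⧸ 𝔭.1) := Ideal.finiteQuotientOfFreeOfNeBot 𝔭.1 𝔭.2.2
  have hbij : Function.Bijective (algebraMap (ZMod ℓ) (𝓞 K ⧸ 𝔭.1)) :=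
    (Nat.bijective_iff_injective_and_card _).mpr ⟨RingHom.injective _, by
      rw [Nat.card_zmod, ← h, Ideal.absNorm_apply, Submodule.cardQuot_apply]⟩
  obtain ⟨c, hc⟩ := hbij.2 (Ideal.Quotient.mk 𝔭.1 x)
  refine ⟨c.val, Ideal.Quotient.eq.mp ?_⟩
  rw [map_natCast, ← hc, ← map_natCast (algebraMap (ZMod ℓ) _), ZMod.natCast_zmod_val]

/-- Degree one primes over `ℓ` correspond to embeddings fixed by a Frobenius at `ℓ`. -/
theorem card_fixed_embeddings (hA : A.LiesOverPrime ℓ) (hℓ : ℓ.Prime) (hgood : Good K ℓ)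
    (hσ : A.IsFrobeniusAt σ ℓ) :
    Nat.card {f : K →ₐ[ℚ] QBar // (σ : QBar →ₐ[ℚ] QBar).comp f = f} =
      Nat.card {𝔭 : PrimeId K // Ideal.absNorm 𝔭.1 = ℓ} := by
  refine Nat.card_congr (Equiv.ofBijective (fun f =>
    ⟨⟨(centre A).comap (intMap K f.1), inferInstance, comap_intMap_ne_bot hA hℓ f.1⟩,
      absNorm_comap_of_fixed hA hℓ hσ f.2⟩) ⟨?_, ?_⟩)
  · intro f f' h
    have h' : (centre A).comap (intMap K f.1) = (centre A).comap (intMap K f'.1) :=
      congrArg (fun t => t.1.1) h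
    by_contra hne
    obtain ⟨x, hx⟩ := hgood A hA f.1 f'.1 (fun hff => hne (Subtype.ext hff))
    obtain ⟨c, hc⟩ := exists_natCast_sub_mem
      (𝔭 := ⟨(centre A).comap (intMap K f.1), inferInstance, comap_intMap_ne_bot hA hℓ f.1⟩)
      (absNorm_comap_of_fixed hA hℓ hσ f.2) hℓ x
    have hc' : x - (c : 𝓞 K) ∈ (centre A).comap (intMap K f'.1) := h' ▸ hc
    rw [mem_comap_intMap] at hc hc'
    have h4 := nonunits_sub hc hc'
    rw [RingOfIntegers.coe_eq_algebraMap, map_sub, map_natCast, map_sub, map_natCast, map_sub,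
      map_natCast] at h4
    exact hx (by simpa using h4)
  · rintro ⟨𝔭, h𝔭⟩
    let f₀ : K →ₐ[ℚ] QBar := IsAlgClosed.lift
    -- a prime of `ZBar` over `𝔭`
    have hint : (intMap K f₀).IsIntegral := fun z => RingHom.IsIntegralElem.of_comp
      (f := algebraMap ℤ (𝓞 K)) (by
        rw [RingHom.ext_int ((intMap K f₀).comp (algebraMap ℤ (𝓞 K))) (algebraMap ℤ ZBar)]
        exact (Algebra.IsInvariant.isIntegral_of_profinite (A := ℤ) (B := ZBar) (G := GQ)).1 z)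
    let := (intMap K f₀).toAlgebra
    have : Algebra.IsIntegral (𝓞 K) ZBar := ⟨hint⟩
    have := 𝔭.2.1
    have hinj : Function.Injective (algebraMap (𝓞 K) ZBar) := fun a b hab =>
      RingOfIntegers.ext (f₀.injective (congrArg Subtype.val hab))
    obtain ⟨Q, hQ, hQ𝔭⟩ : ∃ Q : Ideal ZBar, Q.IsPrime ∧ Q.comap (algebraMap (𝓞 K) ZBar) = 𝔭.1 := by
      obtain ⟨Q, -, hQ, hQ'⟩ := Ideal.exists_ideal_over_prime_of_isIntegral 𝔭.1 (⊥ : Ideal ZBar)
        (by rw [Ideal.comap_bot_of_injective _ hinj]; exact bot_le)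
      exact ⟨Q, hQ, hQ'⟩
    have hmemℓ : (ℓ : ZBar) ∈ Q := by
      have h1 : (ℓ : 𝓞 K) ∈ Q.comap (algebraMap (𝓞 K) ZBar) := by
        rw [hQ𝔭, ← h𝔭]; exact Ideal.absNorm_mem 𝔭.1
      rwa [Ideal.mem_comap, map_natCast] at h1
    have hunder : Q.under ℤ = Ideal.span {(ℓ : ℤ)} := by
      refine ((PrincipalIdealRing.isMaximal_of_irreducible
        (Nat.prime_iff_prime_int.mp hℓ).irreducible).eq_of_le Ideal.IsPrime.ne_top' ?_).symm
      rw [Ideal.span_singleton_le_iff_mem, Ideal.under_def, Ideal.mem_comap, map_natCast]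
      exact hmemℓ
    obtain ⟨g, hg⟩ := Algebra.IsInvariant.exists_smul_of_under_eq_of_profinite (A := ℤ) (G := GQ)
      Q (centre A) (hunder.trans (centre_under hA hℓ).symm)
    have hcomap : (centre A).comap (intMap K ((g : QBar →ₐ[ℚ] QBar).comp f₀)) = 𝔭.1 := by
      ext x
      rw [← hQ𝔭, Ideal.mem_comap, Ideal.mem_comap, hg, Ideal.mem_pointwise_smul_iff_inv_smul_mem]
      convert Iff.rfl using 2
      apply Subtype.ext
      show f₀ (x : K) = g⁻¹ • (g (f₀ (x : K)))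
      rw [← AlgEquiv.smul_def g, inv_smul_smul]
    refine ⟨⟨(g : QBar →ₐ[ℚ] QBar).comp f₀, ?_⟩, Subtype.ext (Subtype.ext hcomap)⟩
    by_contra hne
    obtain ⟨x, hx⟩ := hgood A hA _ _ hne
    obtain ⟨c, hc⟩ := exists_natCast_sub_mem h𝔭 hℓ x
    rw [← hcomap, mem_comap_intMap] at hc
    set φ := (g : QBar →ₐ[ℚ] QBar).comp f₀
    apply hx
    show σ (φ (x : K)) - φ (x : K) ∈ A.nonunits
    rw [RingOfIntegers.coe_eq_algebraMap, map_sub, map_natCast, map_sub, map_natCast] at hc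
    have hσ' := (isFrobeniusAt_iff_forall_mem).mp hσ
    have h1 : σ (φ (x : K) - (c : QBar)) ∈ A.nonunits := by
      have := (smul_mem_nonunits_smul_iff (g := σ) (A := A)).mpr hc
      rwa [hσ'.1, AlgEquiv.smul_def] at this
    rw [map_sub, map_natCast] at h1
    simpa using nonunits_sub h1 hc

end Fermat.Agent.Arith.Density
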